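/-
S25 package TWIST, leaf G2d (`isBC_pull`): the base change of a pull-back `π^* E` is the
pull-back of `R' ⊗[R] E`.  Author: helper3050.  Proved for an arbitrary morphism of two-charts
(`isBC_pull_hom`), then specialised to `𝒞.chartHom φ` with the EXACT leaf statement.
-/
import Fermat.Agent.S25.TWIST.Defs

set_option autoImplicit false
set_option linter.style.haveILetI false

universe u

namespace Fermat.Agent.S25.TWIST.G2.H3050

open scoped TensorProduct

open GluedModule Ten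

/-! ### One chart: `B' ⊗[R'] (R' ⊗[R] E)` is the base change of `B ⊗[R] E` along `B → B'` -/

section core

variable {R R' B B' : Type u} [CommRing R] [CommRing R'] [CommRing B] [CommRing B']
  [Algebra R B] [Algebra R' B'] [Algebra R R'] (ψ : B →+* B')
  (hψ : ∀ r : R, ψ (algebraMap R B r) = algebraMap R' B' (algebraMap R R' r))
  (E : Type u) [AddCommGroup E] [Module R E]

/-- The comparison map `B ⊗[R] E → B' ⊗[R'] (R' ⊗[R] E)`, `b ⊗ e ↦ ψ b ⊗ (1 ⊗ e)`. -/
noncomputable def jmap : B ⊗[R] E →+ B' ⊗[R'] (R' ⊗[R] E) :=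
  TensorProduct.liftAddHom
    { toFun := fun b =>
        { toFun := fun e => ψ b ⊗ₜ[R'] ((1 : R') ⊗ₜ[R] e)
          map_zero' := by rw [TensorProduct.tmul_zero, TensorProduct.tmul_zero]
          map_add' := fun e e' => by rw [TensorProduct.tmul_add, TensorProduct.tmul_add] }
      map_zero' := by
        ext e
        simp only [map_zero, TensorProduct.zero_tmul, AddMonoidHom.coe_mk, ZeroHom.coe_mk,
          AddMonoidHom.zero_apply]
      map_add' := fun b b' => by
        ext e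
        simp only [map_add, TensorProduct.add_tmul, AddMonoidHom.coe_mk, ZeroHom.coe_mk,
          AddMonoidHom.add_apply] }
    (fun r b e => by
      change ψ (r • b) ⊗ₜ[R'] ((1 : R') ⊗ₜ[R] e) = ψ b ⊗ₜ[R'] ((1 : R') ⊗ₜ[R] (r • e))
      rw [Algebra.smul_def, map_mul, hψ, ← Algebra.smul_def, TensorProduct.smul_tmul,
        TensorProduct.smul_tmul', smul_eq_mul, mul_one, ← TensorProduct.smul_tmul,
        Algebra.smul_def, mul_one])

theorem jmap_tmul (b : B) (e : E) :
    jmap ψ hψ E (b ⊗ₜ[R] e) = ψ b ⊗ₜ[R'] ((1 : R') ⊗ₜ[R] e) := rfl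

theorem jmap_smul (b : B) (n : B ⊗[R] E) : jmap ψ hψ E (b • n) = ψ b • jmap ψ hψ E n := by
  induction n using TensorProduct.induction_on with
  | zero => rw [smul_zero, map_zero, smul_zero]
  | tmul c e =>
    rw [TensorProduct.smul_tmul', jmap_tmul, jmap_tmul, smul_eq_mul, map_mul,
      TensorProduct.smul_tmul', smul_eq_mul]
  | add x y hx hy => rw [smul_add, map_add, map_add, smul_add, hx, hy]

/-- Values of a `B'`-linear map on pure tensors in terms of its values on the image of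
`jmap`. -/
theorem apply_tmul_tmul {Q : Type u} [AddCommGroup Q] [Module B' Q]
    (F : B' ⊗[R'] (R' ⊗[R] E) →ₗ[B'] Q) (b' : B') (r' : R') (e : E) :
    F (b' ⊗ₜ[R'] (r' ⊗ₜ[R] e)) =
      (b' * algebraMap R' B' r') • F (jmap ψ hψ E ((1 : B) ⊗ₜ[R] e)) := by
  rw [jmap_tmul, map_one, ← map_smul, TensorProduct.smul_tmul', smul_eq_mul, mul_one]
  congr 1
  have h1 : r' ⊗ₜ[R] e = r' • ((1 : R') ⊗ₜ[R] e) := by
    rw [TensorProduct.smul_tmul', smul_eq_mul, mul_one]
  rw [h1, ← TensorProduct.smul_tmul, Algebra.smul_def, mul_comm]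

theorem jmap_ext {Q : Type u} [AddCommGroup Q] [Module B' Q]
    (F G : B' ⊗[R'] (R' ⊗[R] E) →ₗ[B'] Q)
    (h : ∀ n, F (jmap ψ hψ E n) = G (jmap ψ hψ E n)) : F = G := by
  apply LinearMap.ext
  intro x
  induction x using TensorProduct.induction_on with
  | zero => rw [map_zero, map_zero]
  | tmul b' y =>
    induction y using TensorProduct.induction_on with
    | zero => rw [TensorProduct.tmul_zero, map_zero, map_zero]
    | tmul r' e => rw [apply_tmul_tmul ψ hψ E F, apply_tmul_tmul ψ hψ E G, h]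
    | add y z hy hz => rw [TensorProduct.tmul_add, map_add, map_add, hy, hz]
  | add x y hx hy => rw [map_add, map_add, hx, hy]

/-- The universal property of `jmap`. -/
theorem jmap_univ (Q : Type u) [AddCommGroup Q] [Module B' Q] (h : B ⊗[R] E →+ Q)
    (hh : ∀ (b : B) (n : B ⊗[R] E), h (b • n) = ψ b • h n) :
    ∃! h' : B' ⊗[R'] (R' ⊗[R] E) →ₗ[B'] Q, ∀ n, h' (jmap ψ hψ E n) = h n := by
  letI mR' : Module R' Q := Module.compHom Q (algebraMap R' B')
  haveI tR' : IsScalarTower R' B' Q := IsScalarTower.of_algebraMap_smul fun _ _ => rfl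
  letI mR : Module R Q := Module.compHom Q (algebraMap R R')
  haveI tR : IsScalarTower R R' Q := IsScalarTower.of_algebraMap_smul fun _ _ => rfl
  let g : E →ₗ[R] Q :=
    { toFun := fun e => h ((1 : B) ⊗ₜ[R] e)
      map_add' := fun e e' => by rw [TensorProduct.tmul_add, map_add]
      map_smul' := fun r e => by
        have h1 : (1 : B) ⊗ₜ[R] (r • e) = algebraMap R B r • ((1 : B) ⊗ₜ[R] e) := by
          rw [TensorProduct.smul_tmul', smul_eq_mul, mul_one, ← TensorProduct.smul_tmul,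
            Algebra.smul_def, mul_one]
        rw [h1, hh, hψ]
        rfl }
  let g₀ : R' ⊗[R] E →ₗ[R'] Q := LinearMap.liftBaseChange R' g
  have hg₀ : ∀ (r' : R') (e : E), g₀ (r' ⊗ₜ[R] e) = r' • h ((1 : B) ⊗ₜ[R] e) := fun r' e =>
    LinearMap.liftBaseChange_tmul R' g r' e
  let h' : B' ⊗[R'] (R' ⊗[R] E) →ₗ[B'] Q :=
    TensorProduct.AlgebraTensorModule.lift (LinearMap.toSpanSingleton B' _ g₀)
  have hh' : ∀ (b' : B') (x : R' ⊗[R] E), h' (b' ⊗ₜ[R'] x) = b' • g₀ x := fun b' x => rfl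
  have key : ∀ n, h' (jmap ψ hψ E n) = h n := by
    intro n
    induction n using TensorProduct.induction_on with
    | zero => rw [map_zero, map_zero, map_zero]
    | tmul b e =>
      rw [jmap_tmul, hh', hg₀, one_smul]
      have h1 : b ⊗ₜ[R] e = b • ((1 : B) ⊗ₜ[R] e) := by
        rw [TensorProduct.smul_tmul', smul_eq_mul, mul_one]
      rw [h1, hh]
    | add x y hx hy => rw [map_add, map_add, map_add, hx, hy]
  refine ⟨h', key, fun h'' hh'' => ?_⟩
  exact jmap_ext ψ hψ E h'' h' (fun n => by rw [hh'', key])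

end core

/-! ### The three charts -/

section hom

variable {R R' : Type u} [CommRing R] [CommRing R'] {φ : R →+* R'} {𝔹 : TwoChart R}
  {𝔹' : TwoChart R'} (Ψ : TwoChart.Hom φ 𝔹 𝔹') (E : Type u) [AddCommGroup E] [Module R E]

/-- Base change of a pull-back along an arbitrary morphism of two-charts. -/
theorem isBC_pull_hom :
    letI : Algebra R R' := φ.toAlgebra
    IsBC Ψ (pull 𝔹 E) (pull 𝔹' (R' ⊗[R] E)) := by
  letI : Algebra R R' := φ.toAlgebra
  have h₁ : ∀ r : R, Ψ.ψ₁ (algebraMap R 𝔹.B₁ r) = algebraMap R' 𝔹'.B₁ (algebraMap R R' r) :=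
    Ψ.alg₁
  have h₂ : ∀ r : R, Ψ.ψ₂ (algebraMap R 𝔹.B₂ r) = algebraMap R' 𝔹'.B₂ (algebraMap R R' r) :=
    Ψ.alg₂
  have h₁₂ : ∀ r : R,
      Ψ.ψ₁₂ (algebraMap R 𝔹.B₁₂ r) = algebraMap R' 𝔹'.B₁₂ (algebraMap R R' r) := Ψ.alg₁₂
  refine ⟨
    { j₁ := jmap Ψ.ψ₁ h₁ E
      j₂ := jmap Ψ.ψ₂ h₂ E
      j₁₂ := jmap Ψ.ψ₁₂ h₁₂ E
      j₁_smul := jmap_smul Ψ.ψ₁ h₁ E
      j₂_smul := jmap_smul Ψ.ψ₂ h₂ E
      j₁₂_smul := jmap_smul Ψ.ψ₁₂ h₁₂ E
      comm₁ := ?_
      comm₂ := ?_
      univ₁ := jmap_univ Ψ.ψ₁ h₁ E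
      univ₂ := jmap_univ Ψ.ψ₂ h₂ E }⟩
  · intro n
    change jmap Ψ.ψ₁₂ h₁₂ E (LinearMap.rTensor E 𝔹.r₁.toLinearMap n) =
      LinearMap.rTensor (R' ⊗[R] E) 𝔹'.r₁.toLinearMap (jmap Ψ.ψ₁ h₁ E n)
    induction n using TensorProduct.induction_on with
    | zero => rw [map_zero, map_zero, map_zero, map_zero]
    | tmul b e =>
      rw [LinearMap.rTensor_tmul, jmap_tmul, jmap_tmul, LinearMap.rTensor_tmul]
      exact congrArg (fun z => z ⊗ₜ[R'] ((1 : R') ⊗ₜ[R] e)) (Ψ.comm₁ b)
    | add x y hx hy => rw [map_add, map_add, map_add, map_add, hx, hy]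
  · intro n
    change jmap Ψ.ψ₁₂ h₁₂ E (LinearMap.rTensor E 𝔹.r₂.toLinearMap n) =
      LinearMap.rTensor (R' ⊗[R] E) 𝔹'.r₂.toLinearMap (jmap Ψ.ψ₂ h₂ E n)
    induction n using TensorProduct.induction_on with
    | zero => rw [map_zero, map_zero, map_zero, map_zero]
    | tmul b e =>
      rw [LinearMap.rTensor_tmul, jmap_tmul, jmap_tmul, LinearMap.rTensor_tmul]
      exact congrArg (fun z => z ⊗ₜ[R'] ((1 : R') ⊗ₜ[R] e)) (Ψ.comm₂ b)
    | add x y hx hy => rw [map_add, map_add, map_add, map_add, hx, hy]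

end hom

/-! ### The leaf -/

variable {k : Type u} [Field k] (𝒞 : CurveData k)

variable {R : Type u} [CommRing R]

/-- (G2d) Base change of a pull-back is the pull-back of an invertible module. -/
theorem isBC_pull [Algebra k R] {R' : Type u} [CommRing R'] [Algebra k R'] (φ : R →ₐ[k] R')
    (E : Type u) [AddCommGroup E] [Module R E] [Module.Invertible R E] :
    ∃ (E' : Type u) (_ : AddCommGroup E') (_ : Module R' E'), Module.Invertible R' E' ∧
      IsBC (𝒞.chartHom φ) (pull (𝒞.chart R) E) (pull (𝒞.chart R') E') := by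
  letI : Algebra R R' := (φ : R →+* R').toAlgebra
  exact ⟨R' ⊗[R] E, inferInstance, inferInstance, inferInstance, isBC_pull_hom (𝒞.chartHom φ) E⟩

end Fermat.Agent.S25.TWIST.G2.H3050
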