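/-
S25 package TWIST, leaves G2a, G2b, G2c, G2e (helper9130): elementary properties of the
pull-back `pull 𝔹 E` of a module of the base.  No sorry.
-/
import Fermat.Agent.S25.TWIST.Defs

set_option autoImplicit false

universe u

namespace Fermat.Agent.S25.TWIST.G2.H9130

open scoped TensorProduct

open GluedModule

variable {R : Type u} [CommRing R]

/-- (G2a) The pull-back of an invertible module is a line bundle. -/
theorem pull_isLineBundle (𝔹 : TwoChart R) (E : Type u) [AddCommGroup E] [Module R E]
    [Module.Invertible R E] : (pull 𝔹 E).IsLineBundle :=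
  ⟨inferInstanceAs (Module.Invertible 𝔹.B₁ (𝔹.B₁ ⊗[R] E)),
    inferInstanceAs (Module.Invertible 𝔹.B₂ (𝔹.B₂ ⊗[R] E))⟩

/-- (G2b) Functoriality of the pull-back for isomorphisms. -/
theorem pull_iso (𝔹 : TwoChart R) (E E' : Type u) [AddCommGroup E] [Module R E]
    [AddCommGroup E'] [Module R E'] (e : E ≃ₗ[R] E') : Nonempty (Iso (pull 𝔹 E) (pull 𝔹 E')) :=
  ⟨{ e₁ := TensorProduct.AlgebraTensorModule.congr (LinearEquiv.refl 𝔹.B₁ 𝔹.B₁) e
     e₂ := TensorProduct.AlgebraTensorModule.congr (LinearEquiv.refl 𝔹.B₂ 𝔹.B₂) e
     e₁₂ := TensorProduct.AlgebraTensorModule.congr (LinearEquiv.refl 𝔹.B₁₂ 𝔹.B₁₂) e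
     comm₁ := fun n => by
       induction n using TensorProduct.induction_on with
       | zero => simp
       | tmul b x => rfl
       | add x y hx hy => simp only [map_add, hx, hy]
     comm₂ := fun n => by
       induction n using TensorProduct.induction_on with
       | zero => simp
       | tmul b x => rfl
       | add x y hx hy => simp only [map_add, hx, hy] }⟩

/-- (G2c) The pull-back of the base ring is the structure sheaf. -/
theorem pull_self_iso_unit (𝔹 : TwoChart R) :
    Nonempty (Iso (pull 𝔹 R) (GluedModule.unit 𝔹)) :=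
  ⟨{ e₁ := TensorProduct.AlgebraTensorModule.rid R 𝔹.B₁ 𝔹.B₁
     e₂ := TensorProduct.AlgebraTensorModule.rid R 𝔹.B₂ 𝔹.B₂
     e₁₂ := TensorProduct.AlgebraTensorModule.rid R 𝔹.B₁₂ 𝔹.B₁₂
     comm₁ := fun n => by
       induction n using TensorProduct.induction_on with
       | zero => simp
       | tmul b x =>
         change x • 𝔹.r₁ b = 𝔹.r₁ (x • b)
         rw [map_smul]
       | add x y hx hy => simp only [map_add, hx, hy]
     comm₂ := fun n => by
       induction n using TensorProduct.induction_on with
       | zero => simp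
       | tmul b x =>
         change x • 𝔹.r₂ b = 𝔹.r₂ (x • b)
         rw [map_smul]
       | add x y hx hy => simp only [map_add, hx, hy] }⟩

/-- (G2e) An invertible module over a field is free of rank one. -/
theorem invertible_field_equiv (κ : Type u) [Field κ] (E : Type u) [AddCommGroup E] [Module κ E]
    [Module.Invertible κ E] : Nonempty (E ≃ₗ[κ] κ) :=
  Module.Invertible.free_iff_linearEquiv.mp inferInstance

end Fermat.Agent.S25.TWIST.G2.H9130
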